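import Fermat.Agent.FF3.PetUnfold.Pairing

/-!
# Programme I, block D-Pet: commensurable subgroups (abstract, Mathlib-only)

* `exists_isWeight_of_commensurable` (C2): a weight of finite mass for `Δ₀` gives one for every
  subgroup commensurable with `Δ₀`.
* `smul_pair_commensurable` (C1): for `Δ₁`, `Δ₂` commensurable, `φ` bounded and invariant under both,
  `mass χ₂ • pair μ χ₁ φ = mass χ₁ • pair μ χ₂ φ`: the normalised (mean value) pairing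
  `pair μ χ φ / mass χ` does not depend on the subgroup nor on the weight.
-/

set_option autoImplicit false

open MeasureTheory ENNReal

namespace Fermat.Agent.FF3.PetUnfold

variable {G X : Type*} [Group G] [MulAction G X] [MeasurableSpace X] {μ : Measure X}
  {E : Type*} [NormedAddCommGroup E] [NormedSpace ℝ E]
  [MeasurableConstSMul G X] [SMulInvariantMeasure G X μ]

theorem countable_of_le {Δ' Δ : Subgroup G} (h : Δ' ≤ Δ) [Countable Δ] : Countable Δ' :=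
  (Subgroup.inclusion_injective h).countable

/-- (C2) A weight of finite mass for `Δ₀` gives a weight of finite mass for every subgroup
commensurable with `Δ₀`. -/
theorem exists_isWeight_of_commensurable {Δ Δ₀ : Subgroup G} (hc : Subgroup.Commensurable Δ Δ₀)
    {χ₀ : X → ℝ≥0∞} (h₀ : IsWeight Δ₀ χ₀) (hfin₀ : ∫⁻ x, χ₀ x ∂μ ≠ ∞) :
    ∃ χ : X → ℝ≥0∞, IsWeight Δ χ ∧ ∫⁻ x, χ x ∂μ ≠ ∞ := by
  have hn₀ : (Δ ⊓ Δ₀).relIndex Δ₀ ≠ 0 := by rw [Subgroup.inf_relIndex_right]; exact hc.1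
  have hn : (Δ ⊓ Δ₀).relIndex Δ ≠ 0 := by rw [Subgroup.inf_relIndex_left]; exact hc.2
  have hfinq := finite_quotient_of_relIndex_ne_zero hn₀
  have h₁ : IsWeight (Δ ⊓ Δ₀) _ := h₀.down (Δ' := Δ ⊓ Δ₀) inf_le_right
  have hm₁ := lintegral_down (μ := μ) (Δ := Δ₀) (Δ' := Δ ⊓ Δ₀) h₀.measurable
  refine ⟨_, h₁.up inf_le_left hn, ?_⟩
  rw [lintegral_up h₁.measurable, hm₁]
  exact (ENNReal.div_lt_top (ENNReal.mul_ne_top (ENNReal.natCast_ne_top _) hfin₀)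
    (Nat.cast_ne_zero.mpr hn)).ne

/-- (C1) **The normalised pairing does not depend on the subgroup**: for commensurable `Δ₁`, `Δ₂`,
`φ` bounded and invariant under both, and weights of finite mass,
`mass χ₂ • pair μ χ₁ φ = mass χ₁ • pair μ χ₂ φ`. -/
theorem smul_pair_commensurable {Δ₁ Δ₂ : Subgroup G} [Countable Δ₁]
    (hc : Subgroup.Commensurable Δ₁ Δ₂) {φ : X → E} (hφ : AEStronglyMeasurable φ μ) {C : ℝ}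
    (hb : ∀ x, ‖φ x‖ ≤ C) (hinv₁ : ∀ δ ∈ Δ₁, ∀ x, φ (δ • x) = φ x)
    (hinv₂ : ∀ δ ∈ Δ₂, ∀ x, φ (δ • x) = φ x) {χ₁ χ₂ : X → ℝ≥0∞} (h₁ : IsWeight Δ₁ χ₁)
    (h₂ : IsWeight Δ₂ χ₂) (hfin₁ : ∫⁻ x, χ₁ x ∂μ ≠ ∞) (hfin₂ : ∫⁻ x, χ₂ x ∂μ ≠ ∞) :
    (∫⁻ x, χ₂ x ∂μ).toReal • pair μ χ₁ φ = (∫⁻ x, χ₁ x ∂μ).toReal • pair μ χ₂ φ := by
  have hn₁ : (Δ₁ ⊓ Δ₂).relIndex Δ₁ ≠ 0 := by rw [Subgroup.inf_relIndex_left]; exact hc.2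
  have hn₂ : (Δ₁ ⊓ Δ₂).relIndex Δ₂ ≠ 0 := by rw [Subgroup.inf_relIndex_right]; exact hc.1
  have hq₁ := finite_quotient_of_relIndex_ne_zero hn₁
  have hq₂ := finite_quotient_of_relIndex_ne_zero hn₂
  have hcount : Countable (Δ₁ ⊓ Δ₂ : Subgroup G) := countable_of_le inf_le_left
  set n₁ := (Δ₁ ⊓ Δ₂).relIndex Δ₁ with hn₁def
  set n₂ := (Δ₁ ⊓ Δ₂).relIndex Δ₂ with hn₂def
  -- the two descended weights
  have hw₁ : IsWeight (Δ₁ ⊓ Δ₂) _ := h₁.down (Δ' := Δ₁ ⊓ Δ₂) inf_le_left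
  have hw₂ : IsWeight (Δ₁ ⊓ Δ₂) _ := h₂.down (Δ' := Δ₁ ⊓ Δ₂) inf_le_right
  have hm₁ := lintegral_down (μ := μ) (Δ := Δ₁) (Δ' := Δ₁ ⊓ Δ₂) h₁.measurable
  have hm₂ := lintegral_down (μ := μ) (Δ := Δ₂) (Δ' := Δ₁ ⊓ Δ₂) h₂.measurable
  have hf₁ : ∫⁻ x, ∑' q : Δ₁ ⧸ (Δ₁ ⊓ Δ₂).subgroupOf Δ₁, χ₁ (((q.out : Δ₁) : G) • x) ∂μ ≠ ∞ := by
    rw [hm₁]; exact ENNReal.mul_ne_top (ENNReal.natCast_ne_top _) hfin₁
  have hf₂ : ∫⁻ x, ∑' q : Δ₂ ⧸ (Δ₁ ⊓ Δ₂).subgroupOf Δ₂, χ₂ (((q.out : Δ₂) : G) • x) ∂μ ≠ ∞ := by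
    rw [hm₂]; exact ENNReal.mul_ne_top (ENNReal.natCast_ne_top _) hfin₂
  -- pairings
  have hp₁ := pair_down (μ := μ) (Δ := Δ₁) (Δ' := Δ₁ ⊓ Δ₂) h₁.measurable h₁.ne_top hfin₁ hφ hb
    hinv₁
  have hp₂ := pair_down (μ := μ) (Δ := Δ₂) (Δ' := Δ₁ ⊓ Δ₂) h₂.measurable h₂.ne_top hfin₂ hφ hb
    hinv₂
  have hpe := pair_eq (μ := μ) (Δ₁ ⊓ Δ₂) hφ hb (fun δ hδ x => hinv₁ δ hδ.1 x) hw₁ hw₂ hf₁ hf₂
  rw [hp₁, hp₂] at hpe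
  -- masses
  have hme : (n₁ : ℝ) * (∫⁻ x, χ₁ x ∂μ).toReal = (n₂ : ℝ) * (∫⁻ x, χ₂ x ∂μ).toReal := by
    have h := lintegral_mul_eq (μ := μ) (Δ₁ ⊓ Δ₂) (φ := fun _ => 1) measurable_const
      (fun _ _ _ => rfl) hw₁ hw₂
    simp only [one_mul] at h
    rw [hm₁, hm₂] at h
    have := congrArg ENNReal.toReal h
    simpa [ENNReal.toReal_mul] using this
  -- conclude
  have hn₁' : (n₁ : ℝ) ≠ 0 := Nat.cast_ne_zero.mpr hn₁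
  have hn₂' : (n₂ : ℝ) ≠ 0 := Nat.cast_ne_zero.mpr hn₂
  have key : ((n₁ : ℝ) * (n₂ : ℝ)) • ((∫⁻ x, χ₂ x ∂μ).toReal • pair μ χ₁ φ)
      = ((n₁ : ℝ) * (n₂ : ℝ)) • ((∫⁻ x, χ₁ x ∂μ).toReal • pair μ χ₂ φ) := by
    calc ((n₁ : ℝ) * (n₂ : ℝ)) • ((∫⁻ x, χ₂ x ∂μ).toReal • pair μ χ₁ φ)
        = ((n₂ : ℝ) * (∫⁻ x, χ₂ x ∂μ).toReal) • ((n₁ : ℝ) • pair μ χ₁ φ) := by
          simp only [smul_smul]; congr 1; ring
      _ = ((n₁ : ℝ) * (∫⁻ x, χ₁ x ∂μ).toReal) • ((n₂ : ℝ) • pair μ χ₂ φ) := by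
          rw [hpe, hme]
      _ = ((n₁ : ℝ) * (n₂ : ℝ)) • ((∫⁻ x, χ₁ x ∂μ).toReal • pair μ χ₂ φ) := by
          simp only [smul_smul]; congr 1; ring
  exact smul_right_injective E (mul_ne_zero hn₁' hn₂') key

end Fermat.Agent.FF3.PetUnfold
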