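import Fermat.Agent.FF3.PetUnfold.Weight

/-!
# Programme I, block D-Pet: orbit weights and subgroups of finite index (abstract, Mathlib-only)

For `Δ' ≤ Δ` subgroups of `G`:

* `IsWeight.down` (U2↓): a `Δ`-weight `χ` gives the `Δ'`-weight
  `x ↦ ∑' q : Δ ⧸ Δ'.subgroupOf Δ, χ (q.out • x)`; `lintegral_mul_down`: against a `Δ`-invariant
  `φ ≥ 0` its integral is `Δ'.relIndex Δ` times the one of `χ`.
* `IsWeight.up` (U2↑): a `Δ'`-weight `χ'` gives the `Δ`-weight `x ↦ χ' x / Δ'.relIndex Δ`.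
-/

set_option autoImplicit false

open MeasureTheory ENNReal

namespace Fermat.Agent.FF3.PetUnfold

/-- Every element of a group is uniquely `q.out * t` with `q` a left coset of `s` and `t ∈ s`. -/
noncomputable def outMulEquiv {A : Type*} [Group A] (s : Subgroup A) : (A ⧸ s) × s ≃ A where
  toFun p := p.1.out * (p.2 : A)
  invFun g := ((g : A ⧸ s), ⟨((g : A ⧸ s).out)⁻¹ * g, by
    rw [← QuotientGroup.eq, QuotientGroup.out_eq']⟩)
  left_inv := by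
    rintro ⟨q, t⟩
    have h1 : ((q.out * (t : A) : A) : A ⧸ s) = q := by
      rw [QuotientGroup.mk_mul_of_mem _ t.2, QuotientGroup.out_eq']
    refine Prod.ext h1 (Subtype.ext ?_)
    show ((q.out * (t : A) : A) : A ⧸ s).out⁻¹ * (q.out * (t : A)) = t
    rw [h1, inv_mul_cancel_left]
  right_inv := fun g => by
    show (g : A ⧸ s).out * ((g : A ⧸ s).out⁻¹ * g) = g
    rw [mul_inv_cancel_left]

@[simp] theorem outMulEquiv_apply {A : Type*} [Group A] (s : Subgroup A) (p : (A ⧸ s) × s) :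
    outMulEquiv s p = p.1.out * (p.2 : A) := rfl

variable {G X : Type*} [Group G] [MulAction G X] [MeasurableSpace X]

/-- The decomposition `Δ = ⊔_q q.out Δ'` as an equivalence. -/
noncomputable def cosetEquiv {Δ' Δ : Subgroup G} (h : Δ' ≤ Δ) :
    (Δ ⧸ Δ'.subgroupOf Δ) × Δ' ≃ Δ :=
  (Equiv.prodCongr (Equiv.refl _) (Subgroup.subgroupOfEquivOfLe h).symm.toEquiv).trans
    (outMulEquiv (Δ'.subgroupOf Δ))

theorem coe_cosetEquiv {Δ' Δ : Subgroup G} (h : Δ' ≤ Δ) (p : (Δ ⧸ Δ'.subgroupOf Δ) × Δ') :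
    (cosetEquiv h p : G) = ((p.1.out : Δ) : G) * (p.2 : G) := rfl

theorem natCard_quotient_eq_relIndex (Δ' Δ : Subgroup G) :
    Nat.card (Δ ⧸ Δ'.subgroupOf Δ) = Δ'.relIndex Δ :=
  (Subgroup.index_eq_card _).symm

theorem finite_quotient_of_relIndex_ne_zero {Δ' Δ : Subgroup G} (h : Δ'.relIndex Δ ≠ 0) :
    Finite (Δ ⧸ Δ'.subgroupOf Δ) := by
  rw [← natCard_quotient_eq_relIndex] at h
  exact (Nat.card_pos_iff.mp (Nat.pos_of_ne_zero h)).2

/-- A constant `tsum` over a finite type, in `ℝ≥0∞`. -/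
theorem tsum_const_eq_natCard_mul {ι : Type*} [Finite ι] (c : ℝ≥0∞) :
    ∑' _ : ι, c = (Nat.card ι : ℝ≥0∞) * c := by
  have := Fintype.ofFinite ι
  rw [tsum_fintype, Finset.sum_const, Finset.card_univ, Nat.card_eq_fintype_card, nsmul_eq_mul]

namespace IsWeight

variable {Δ Δ' : Subgroup G} {χ : X → ℝ≥0∞} [MeasurableConstSMul G X]

/-- (U2↓) From a `Δ`-weight to a `Δ'`-weight, `Δ' ≤ Δ` (left coset representatives `q.out`). -/
theorem down (hχ : IsWeight Δ χ) (h : Δ' ≤ Δ) [Countable (Δ ⧸ Δ'.subgroupOf Δ)] :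
    IsWeight Δ' fun x => ∑' q : Δ ⧸ Δ'.subgroupOf Δ, χ (((q.out : Δ) : G) • x) :=
  hχ.tsum_smul (fun q : Δ ⧸ Δ'.subgroupOf Δ => ((q.out : Δ) : G)) (cosetEquiv h)
    (coe_cosetEquiv h)

omit [MeasurableConstSMul G X] in
/-- (U2↑) From a `Δ'`-weight to a `Δ`-weight, `Δ' ≤ Δ` of finite index `n`: divide by `n`. -/
theorem up {χ' : X → ℝ≥0∞} (hχ' : IsWeight Δ' χ') (h : Δ' ≤ Δ) (hfin : Δ'.relIndex Δ ≠ 0) :
    IsWeight Δ fun x => χ' x / (Δ'.relIndex Δ : ℝ≥0∞) where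
  measurable := hχ'.measurable.div_const _
  tsum_eq_one := fun x => by
    have := finite_quotient_of_relIndex_ne_zero hfin
    have hsum : ∑' δ : Δ, χ' ((δ : G) • x) = (Δ'.relIndex Δ : ℝ≥0∞) := by
      calc ∑' δ : Δ, χ' ((δ : G) • x)
          = ∑' δ : Δ, χ' (((δ : G)⁻¹) • x) :=
            ((Equiv.inv Δ).tsum_eq (fun δ : Δ => χ' ((δ : G) • x))).symm
        _ = ∑' p : (Δ ⧸ Δ'.subgroupOf Δ) × Δ', χ' (((cosetEquiv h p : Δ) : G)⁻¹ • x) :=
            ((cosetEquiv h).tsum_eq (fun δ : Δ => χ' (((δ : G)⁻¹) • x))).symm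
        _ = ∑' (q : Δ ⧸ Δ'.subgroupOf Δ) (δ' : Δ'),
              χ' (((cosetEquiv h (q, δ') : Δ) : G)⁻¹ • x) :=
            ENNReal.tsum_prod (f := fun (q : Δ ⧸ Δ'.subgroupOf Δ) (δ' : Δ') =>
              χ' (((cosetEquiv h (q, δ') : Δ) : G)⁻¹ • x))
        _ = ∑' _ : Δ ⧸ Δ'.subgroupOf Δ, (1 : ℝ≥0∞) := by
            refine tsum_congr fun q => ?_
            rw [← hχ'.tsum_inv ((((q.out : Δ) : G))⁻¹ • x)]
            refine tsum_congr fun δ' => ?_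
            rw [coe_cosetEquiv, mul_inv_rev, mul_smul]
        _ = (Δ'.relIndex Δ : ℝ≥0∞) := by
            rw [tsum_const_eq_natCard_mul, mul_one, natCard_quotient_eq_relIndex]
    simp_rw [div_eq_mul_inv]
    rw [ENNReal.tsum_mul_right, hsum]
    exact ENNReal.mul_inv_cancel (Nat.cast_ne_zero.mpr hfin) (ENNReal.natCast_ne_top _)

end IsWeight

variable {μ : Measure X} [MeasurableConstSMul G X] [SMulInvariantMeasure G X μ]

/-- (U2↓), integral: against a `Δ`-invariant `φ ≥ 0`, the integral of the descended weight is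
`Δ'.relIndex Δ` times the integral of `χ`. -/
theorem lintegral_mul_down {Δ Δ' : Subgroup G} [Finite (Δ ⧸ Δ'.subgroupOf Δ)] {φ χ : X → ℝ≥0∞}
    (hφ : Measurable φ) (hinv : ∀ δ ∈ Δ, ∀ x, φ (δ • x) = φ x) (hχ : Measurable χ) :
    ∫⁻ x, φ x * ∑' q : Δ ⧸ Δ'.subgroupOf Δ, χ (((q.out : Δ) : G) • x) ∂μ
      = (Δ'.relIndex Δ : ℝ≥0∞) * ∫⁻ x, φ x * χ x ∂μ := by
  calc ∫⁻ x, φ x * ∑' q : Δ ⧸ Δ'.subgroupOf Δ, χ (((q.out : Δ) : G) • x) ∂μ
      = ∫⁻ x, ∑' q : Δ ⧸ Δ'.subgroupOf Δ, φ x * χ (((q.out : Δ) : G) • x) ∂μ := by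
        refine lintegral_congr fun x => ?_
        rw [ENNReal.tsum_mul_left]
    _ = ∑' q : Δ ⧸ Δ'.subgroupOf Δ, ∫⁻ x, φ x * χ (((q.out : Δ) : G) • x) ∂μ := by
        refine lintegral_tsum fun q => ?_
        exact (hφ.mul (hχ.comp (measurable_const_smul _))).aemeasurable
    _ = ∑' _ : Δ ⧸ Δ'.subgroupOf Δ, ∫⁻ x, φ x * χ x ∂μ := by
        refine tsum_congr fun q => ?_
        rw [← lintegral_comp_smul' (μ := μ) (fun y => φ y * χ y) ((q.out : Δ) : G)]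
        refine lintegral_congr fun x => ?_
        rw [hinv _ (q.out : Δ).2]
    _ = (Δ'.relIndex Δ : ℝ≥0∞) * ∫⁻ x, φ x * χ x ∂μ := by
        rw [tsum_const_eq_natCard_mul, natCard_quotient_eq_relIndex]

/-- Total mass of the descended weight. -/
theorem lintegral_down {Δ Δ' : Subgroup G} [Finite (Δ ⧸ Δ'.subgroupOf Δ)] {χ : X → ℝ≥0∞}
    (hχ : Measurable χ) :
    ∫⁻ x, ∑' q : Δ ⧸ Δ'.subgroupOf Δ, χ (((q.out : Δ) : G) • x) ∂μ
      = (Δ'.relIndex Δ : ℝ≥0∞) * ∫⁻ x, χ x ∂μ := by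
  have := lintegral_mul_down (μ := μ) (Δ := Δ) (Δ' := Δ') (φ := fun _ => 1) measurable_const
    (fun _ _ _ => rfl) hχ
  simpa using this

omit [MulAction G X] [MeasurableConstSMul G X] [SMulInvariantMeasure G X μ] in
/-- Total mass of the ascended weight. -/
theorem lintegral_up {Δ Δ' : Subgroup G} {χ' : X → ℝ≥0∞} (hχ' : Measurable χ') :
    ∫⁻ x, χ' x / (Δ'.relIndex Δ : ℝ≥0∞) ∂μ = (∫⁻ x, χ' x ∂μ) / (Δ'.relIndex Δ : ℝ≥0∞) := by
  simp_rw [div_eq_mul_inv]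
  exact lintegral_mul_const _ hχ'

end Fermat.Agent.FF3.PetUnfold
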