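import Fermat.Agent.FF3.PetUnfold.Index

/-!
# Programme I, block D-Pet: the weighted pairing (abstract, Mathlib-only)

`pair μ χ φ := ∫ x, (χ x).toReal • φ x ∂μ` for an orbit weight `χ` and a vector-valued function `φ`.

* `integrable_toReal_smul` : integrability for bounded `φ` and `χ` of finite mass.
* `pair_eq` (U1, Bochner form) : for `φ` bounded, a.e.-strongly measurable and `Δ`-invariant,
  `pair μ χ φ` is the same for all `Δ`-weights `χ` of finite total mass;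
  `integral_mul_toReal_eq` is the same statement in the literal form `∫ φ * (χ.toReal : ℂ)`.
* `pair_comp_smul` (U3) : `pair μ (χ ∘ (α • ·)) (φ ∘ (α • ·)) = pair μ χ φ`.
* `pair_sum_smul` (U2, trace adjunction) :
  `pair μ (∑ i, χ ∘ (δ i • ·)) φ = ∑ i, pair μ χ (φ ∘ ((δ i)⁻¹ • ·))`.
* `pair_down` : for `Δ`-invariant `φ`, the pairing against the descended weight is
  `Δ'.relIndex Δ` times the pairing against `χ`.
-/

set_option autoImplicit false

open MeasureTheory ENNReal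

namespace Fermat.Agent.FF3.PetUnfold

variable {G X : Type*} [Group G] [MulAction G X] [MeasurableSpace X] {μ : Measure X}
  {E : Type*} [NormedAddCommGroup E] [NormedSpace ℝ E]

/-- The weighted pairing. -/
noncomputable def pair (μ : Measure X) (χ : X → ℝ≥0∞) (φ : X → E) : E :=
  ∫ x, (χ x).toReal • φ x ∂μ

theorem pair_def (χ : X → ℝ≥0∞) (φ : X → E) : pair μ χ φ = ∫ x, (χ x).toReal • φ x ∂μ := rfl

omit [NormedSpace ℝ E] in
theorem enorm_le_ofReal_of_norm_le {v : E} {C : ℝ} (h : ‖v‖ ≤ C) : ‖v‖ₑ ≤ ENNReal.ofReal C := by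
  rw [← ofReal_norm]
  exact ENNReal.ofReal_le_ofReal h

/-- Integrability of `χ.toReal • φ` for a bounded `φ` and a weight function of finite mass. -/
theorem integrable_toReal_smul {χ : X → ℝ≥0∞} (hχm : Measurable χ) (hfin : ∫⁻ x, χ x ∂μ ≠ ∞)
    {φ : X → E} (hφ : AEStronglyMeasurable φ μ) {C : ℝ} (hb : ∀ x, ‖φ x‖ ≤ C) :
    Integrable (fun x => (χ x).toReal • φ x) μ := by
  refine ⟨hχm.ennreal_toReal.aestronglyMeasurable.smul hφ, ?_⟩
  have hle : ∫⁻ x, ‖(χ x).toReal • φ x‖ₑ ∂μ ≤ ENNReal.ofReal C * ∫⁻ x, χ x ∂μ := by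
    rw [← lintegral_const_mul' _ _ ENNReal.ofReal_ne_top]
    refine lintegral_mono fun x => ?_
    rw [enorm_smul, Real.enorm_eq_ofReal toReal_nonneg, mul_comm]
    exact mul_le_mul' (enorm_le_ofReal_of_norm_le (hb x)) ENNReal.ofReal_toReal_le
  exact hle.trans_lt (ENNReal.mul_lt_top ENNReal.ofReal_lt_top hfin.lt_top)

section Fubini

variable {ι : Type*} [Countable ι]

/-- Splitting the pairing along a countable measurable partition of unity `c`. -/
theorem pair_eq_tsum (c : ι → X → ℝ≥0∞) (hc : ∀ i, Measurable (c i))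
    (hsum : ∀ x, ∑' i, c i x = 1) {χ : X → ℝ≥0∞} (hχm : Measurable χ) (hχ : ∀ x, χ x ≠ ∞)
    (hfin : ∫⁻ x, χ x ∂μ ≠ ∞) {φ : X → E} (hφ : AEStronglyMeasurable φ μ) {C : ℝ}
    (hb : ∀ x, ‖φ x‖ ≤ C) :
    pair μ χ φ = ∑' i, ∫ x, ((χ x).toReal * (c i x).toReal) • φ x ∂μ := by
  have hcle : ∀ i x, c i x ≤ 1 := fun i x => by
    have h := ENNReal.le_tsum (f := fun j => c j x) i
    simpa [hsum x] using h
  have hcne : ∀ i x, c i x ≠ ∞ := fun i x => ((hcle i x).trans_lt ENNReal.one_lt_top).ne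
  -- pointwise identity
  have hpt : ∀ x, (χ x).toReal • φ x = ∑' i, ((χ x).toReal * (c i x).toReal) • φ x := by
    intro x
    have hs : Summable fun i => (c i x).toReal :=
      ENNReal.summable_toReal (by rw [hsum x]; exact ENNReal.one_ne_top)
    have h1 : ∑' i, (c i x).toReal = 1 := by
      rw [← ENNReal.tsum_toReal_eq (fun i => hcne i x), hsum x, ENNReal.toReal_one]
    rw [(hs.mul_left _).tsum_smul_const, tsum_mul_left, h1, mul_one]
  rw [pair_def]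
  simp_rw [hpt]
  refine integral_tsum (fun i => ?_) ?_
  · exact ((hχm.ennreal_toReal.mul (hc i).ennreal_toReal).aestronglyMeasurable).smul hφ
  · -- the total mass is finite
    have hle : ∑' i, ∫⁻ x, ‖((χ x).toReal * (c i x).toReal) • φ x‖ₑ ∂μ
        ≤ ENNReal.ofReal C * ∫⁻ x, χ x ∂μ := by
      rw [← lintegral_tsum]
      · rw [← lintegral_const_mul' _ _ ENNReal.ofReal_ne_top]
        refine lintegral_mono fun x => ?_
        have hterm : ∀ i, ‖((χ x).toReal * (c i x).toReal) • φ x‖ₑ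
            ≤ ENNReal.ofReal C * χ x * c i x := by
          intro i
          rw [enorm_smul, Real.enorm_eq_ofReal (mul_nonneg toReal_nonneg toReal_nonneg),
            ENNReal.ofReal_mul toReal_nonneg, ENNReal.ofReal_toReal (hχ x),
            ENNReal.ofReal_toReal (hcne i x)]
          have := enorm_le_ofReal_of_norm_le (hb x)
          calc χ x * c i x * ‖φ x‖ₑ ≤ χ x * c i x * ENNReal.ofReal C := by gcongr
            _ = ENNReal.ofReal C * χ x * c i x := by ring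
        calc ∑' i, ‖((χ x).toReal * (c i x).toReal) • φ x‖ₑ
            ≤ ∑' i, ENNReal.ofReal C * χ x * c i x := ENNReal.tsum_le_tsum hterm
          _ = ENNReal.ofReal C * χ x := by rw [ENNReal.tsum_mul_left, hsum x, mul_one]
      · intro i
        exact (((hχm.ennreal_toReal.mul (hc i).ennreal_toReal).aestronglyMeasurable).smul
          hφ).enorm
    exact (hle.trans_lt (ENNReal.mul_lt_top ENNReal.ofReal_lt_top hfin.lt_top)).ne

end Fubini

variable [MeasurableConstSMul G X] [SMulInvariantMeasure G X μ]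

/-- (U1) **Independence of the weight**, Bochner form: for a bounded, a.e.-strongly measurable,
`Δ`-invariant `φ` the pairing `pair μ χ φ` is the same for all `Δ`-weights of finite total mass. -/
theorem pair_eq (Δ : Subgroup G) [Countable Δ] {φ : X → E} (hφ : AEStronglyMeasurable φ μ) {C : ℝ}
    (hb : ∀ x, ‖φ x‖ ≤ C) (hinv : ∀ δ ∈ Δ, ∀ x, φ (δ • x) = φ x) {χ₁ χ₂ : X → ℝ≥0∞}
    (h₁ : IsWeight Δ χ₁) (h₂ : IsWeight Δ χ₂)
    (hfin₁ : ∫⁻ x, χ₁ x ∂μ ≠ ∞) (hfin₂ : ∫⁻ x, χ₂ x ∂μ ≠ ∞) :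
    pair μ χ₁ φ = pair μ χ₂ φ := by
  have hm₁ := h₁.measurable
  have hm₂ := h₂.measurable
  rw [pair_eq_tsum (fun (δ : Δ) x => χ₂ ((δ : G) • x))
      (fun δ => hm₂.comp (measurable_const_smul (δ : G))) h₂.tsum_eq_one hm₁ h₁.ne_top hfin₁ hφ hb,
    pair_eq_tsum (fun (δ : Δ) x => χ₁ (((δ : G)⁻¹) • x))
      (fun δ => hm₁.comp (measurable_const_smul ((δ : G)⁻¹))) h₁.tsum_inv hm₂ h₂.ne_top hfin₂ hφ hb]
  refine tsum_congr fun δ => ?_
  rw [← integral_smul_eq_self (μ := μ)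
    (fun y => ((χ₂ y).toReal * (χ₁ (((δ : G)⁻¹) • y)).toReal) • φ y) (g := (δ : G))]
  refine integral_congr_ae (Filter.Eventually.of_forall fun x => ?_)
  show ((χ₁ x).toReal * (χ₂ ((δ : G) • x)).toReal) • φ x
    = ((χ₂ ((δ : G) • x)).toReal * (χ₁ (((δ : G)⁻¹) • (δ : G) • x)).toReal) • φ ((δ : G) • x)
  rw [hinv _ δ.2, inv_smul_smul, mul_comm]

/-- (U1), complex literal form. -/
theorem integral_mul_toReal_eq (Δ : Subgroup G) [Countable Δ] {φ : X → ℂ}
    (hφ : AEStronglyMeasurable φ μ) {C : ℝ} (hb : ∀ x, ‖φ x‖ ≤ C)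
    (hinv : ∀ δ ∈ Δ, ∀ x, φ (δ • x) = φ x) {χ₁ χ₂ : X → ℝ≥0∞} (h₁ : IsWeight Δ χ₁)
    (h₂ : IsWeight Δ χ₂) (hfin₁ : ∫⁻ x, χ₁ x ∂μ ≠ ∞) (hfin₂ : ∫⁻ x, χ₂ x ∂μ ≠ ∞) :
    ∫ x, φ x * ((χ₁ x).toReal : ℂ) ∂μ = ∫ x, φ x * ((χ₂ x).toReal : ℂ) ∂μ := by
  have h := pair_eq (μ := μ) Δ hφ hb hinv h₁ h₂ hfin₁ hfin₂
  simp only [pair_def, Complex.real_smul] at h
  simpa only [mul_comm] using h

/-- (U3) **Conjugation / change of variables**:
`pair μ (χ ∘ (α • ·)) (φ ∘ (α • ·)) = pair μ χ φ`. -/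
theorem pair_comp_smul (χ : X → ℝ≥0∞) (φ : X → E) (α : G) :
    pair μ (fun x => χ (α • x)) (fun x => φ (α • x)) = pair μ χ φ :=
  integral_smul_eq_self (μ := μ) (fun y => (χ y).toReal • φ y) (g := α)

/-- (U3), mass form. -/
theorem lintegral_comp_smul_weight (χ : X → ℝ≥0∞) (α : G) :
    ∫⁻ x, χ (α • x) ∂μ = ∫⁻ x, χ x ∂μ :=
  lintegral_comp_smul' χ α

/-- (U2) **Trace adjunction**: the pairing against the weight `∑ i, χ ∘ (δ i • ·)` is the pairing of
`χ` against the trace `∑ i, φ ∘ ((δ i)⁻¹ • ·)`. -/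
theorem pair_sum_smul {ι : Type*} [Fintype ι] (δ : ι → G) {χ : X → ℝ≥0∞} (hχ : ∀ x, χ x ≠ ∞)
    {φ : X → E} (hint : ∀ i, Integrable (fun x => (χ (δ i • x)).toReal • φ x) μ) :
    pair μ (fun x => ∑ i, χ (δ i • x)) φ = ∑ i, pair μ χ fun x => φ ((δ i)⁻¹ • x) := by
  have h1 : ∀ x, (∑ i, χ (δ i • x)).toReal • φ x = ∑ i, (χ (δ i • x)).toReal • φ x := by
    intro x
    rw [ENNReal.toReal_sum (fun i _ => hχ _), Finset.sum_smul]
  rw [pair_def]
  simp_rw [h1]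
  rw [integral_finsetSum _ fun i _ => hint i]
  refine Finset.sum_congr rfl fun i _ => ?_
  rw [pair_def, ← integral_smul_eq_self (μ := μ)
    (fun y => (χ y).toReal • φ ((δ i)⁻¹ • y)) (g := δ i)]
  simp_rw [inv_smul_smul]

/-- Integrability of the translates. -/
theorem integrable_toReal_smul_comp {χ : X → ℝ≥0∞} (hχm : Measurable χ)
    (hfin : ∫⁻ x, χ x ∂μ ≠ ∞) {φ : X → E} (hφ : AEStronglyMeasurable φ μ) {C : ℝ}
    (hb : ∀ x, ‖φ x‖ ≤ C) (g : G) : Integrable (fun x => (χ (g • x)).toReal • φ x) μ :=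
  integrable_toReal_smul (χ := fun x => χ (g • x)) (hχm.comp (measurable_const_smul g))
    (by rw [lintegral_comp_smul' χ g]; exact hfin) hφ hb

/-- (U2↓), Bochner form: for a `Δ`-invariant bounded `φ`, the pairing against the descended weight
is `Δ'.relIndex Δ` times the pairing against `χ`. -/
theorem pair_down {Δ Δ' : Subgroup G} [Finite (Δ ⧸ Δ'.subgroupOf Δ)] {χ : X → ℝ≥0∞}
    (hχm : Measurable χ) (hχ : ∀ x, χ x ≠ ∞) (hfin : ∫⁻ x, χ x ∂μ ≠ ∞) {φ : X → E}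
    (hφ : AEStronglyMeasurable φ μ) {C : ℝ} (hb : ∀ x, ‖φ x‖ ≤ C)
    (hinv : ∀ δ ∈ Δ, ∀ x, φ (δ • x) = φ x) :
    pair μ (fun x => ∑' q : Δ ⧸ Δ'.subgroupOf Δ, χ (((q.out : Δ) : G) • x)) φ
      = (Δ'.relIndex Δ : ℝ) • pair μ χ φ := by
  have := Fintype.ofFinite (Δ ⧸ Δ'.subgroupOf Δ)
  simp_rw [tsum_fintype]
  rw [pair_sum_smul (fun q : Δ ⧸ Δ'.subgroupOf Δ => ((q.out : Δ) : G)) hχ
    (fun q => integrable_toReal_smul_comp hχm hfin hφ hb _)]
  have h1 : ∀ q : Δ ⧸ Δ'.subgroupOf Δ,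
      (pair μ χ fun x => φ ((((q.out : Δ) : G))⁻¹ • x)) = pair μ χ φ := by
    intro q
    congr 1
    funext x
    exact hinv _ (Δ.inv_mem (q.out : Δ).2) x
  simp_rw [h1]
  rw [Finset.sum_const, Finset.card_univ, ← Nat.card_eq_fintype_card,
    natCard_quotient_eq_relIndex, Nat.cast_smul_eq_nsmul]

end Fermat.Agent.FF3.PetUnfold
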