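import Mathlib

/-!
# Programme I, block D-Pet: unfolding with orbit weights (abstract, Mathlib-only)

`G` a group acting measurably on a measure space `(X, μ)`, preserving `μ`.  For a countable subgroup
`Δ ≤ G`, a *`Δ`-weight* is a measurable function `χ : X → ℝ≥0∞` with `∑' δ : Δ, χ (δ • x) = 1` for
every `x` (a measurable partition of unity along the `Δ`-orbits; the indicator of a strict
fundamental domain is an example, but no fundamental domain is needed to make one).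

* `lintegral_mul_eq` (U1): for `φ ≥ 0` measurable and `Δ`-invariant, `∫⁻ φ χ` does not depend on the
  `Δ`-weight `χ`.
* `IsWeight.sum_smul` (U2): from a `Δ`-weight to a `Δ'`-weight, `Δ = ⊔ (δ i) Δ'`.
* `IsWeight.comp_smul`, `IsWeight.conj` (U3): transport of a weight by an element `α : G`.
-/

set_option autoImplicit false

open MeasureTheory ENNReal
open scoped Pointwise

namespace Fermat.Agent.FF3.PetUnfold

variable {G X : Type*} [Group G] [MulAction G X] [MeasurableSpace X]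

/-- `χ` is an orbit weight for the subgroup `Δ`: it is measurable and its sum over every `Δ`-orbit
map is `1`. (Finite total mass `∫⁻ χ ∂μ < ∞` is a separate hypothesis.) -/
structure IsWeight (Δ : Subgroup G) (χ : X → ℝ≥0∞) : Prop where
  measurable : Measurable χ
  tsum_eq_one : ∀ x, ∑' δ : Δ, χ ((δ : G) • x) = 1

namespace IsWeight

variable {Δ : Subgroup G} {χ : X → ℝ≥0∞}

theorem le_one (hχ : IsWeight Δ χ) (x : X) : χ x ≤ 1 := by
  have h := ENNReal.le_tsum (f := fun δ : Δ => χ ((δ : G) • x)) 1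
  simpa [hχ.tsum_eq_one x] using h

theorem ne_top (hχ : IsWeight Δ χ) (x : X) : χ x ≠ ∞ :=
  ((hχ.le_one x).trans_lt ENNReal.one_lt_top).ne

/-- Sum over the inverses. -/
theorem tsum_inv (hχ : IsWeight Δ χ) (x : X) : ∑' δ : Δ, χ (((δ : G)⁻¹) • x) = 1 := by
  rw [← hχ.tsum_eq_one x]
  exact (Equiv.inv Δ).tsum_eq (fun δ : Δ => χ ((δ : G) • x))

variable [MeasurableConstSMul G X]

/-- (U3) **Conjugation**, equivalence form: if `α` conjugates `Δ''` onto `Δ`
(`e δ'' * α = α * δ''`), then `χ ∘ (α • ·)` is a `Δ''`-weight. -/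
theorem comp_smul (hχ : IsWeight Δ χ) {Δ'' : Subgroup G} (α : G) (e : Δ'' ≃ Δ)
    (he : ∀ δ : Δ'', (e δ : G) * α = α * (δ : G)) : IsWeight Δ'' fun x => χ (α • x) where
  measurable := hχ.measurable.comp (measurable_const_smul α)
  tsum_eq_one := fun x => by
    rw [← hχ.tsum_eq_one (α • x), ← e.tsum_eq]
    refine tsum_congr fun δ => ?_
    show χ (α • (δ : G) • x) = χ ((e δ : G) • α • x)
    rw [← mul_smul, ← mul_smul, he]

/-- (U3) **Conjugation**, pointwise-action form: `χ ∘ (α • ·)` is a weight for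
`α⁻¹ Δ α = ConjAct.toConjAct α⁻¹ • Δ`. -/
theorem conj (hχ : IsWeight Δ χ) (α : G) :
    IsWeight (ConjAct.toConjAct α⁻¹ • Δ) fun x => χ (α • x) := by
  have hmem : ∀ δ : G, δ ∈ ConjAct.toConjAct α⁻¹ • Δ ↔ α * δ * α⁻¹ ∈ Δ := by
    intro δ
    rw [Subgroup.mem_pointwise_smul_iff_inv_smul_mem, ← map_inv, inv_inv, ConjAct.smul_def,
      ConjAct.ofConjAct_toConjAct]
  let e : (ConjAct.toConjAct α⁻¹ • Δ : Subgroup G) ≃ Δ :=
    { toFun := fun δ => ⟨α * (δ : G) * α⁻¹, (hmem _).mp δ.2⟩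
      invFun := fun δ => ⟨α⁻¹ * (δ : G) * α, (hmem _).mpr (by
        have : α * (α⁻¹ * (δ : G) * α) * α⁻¹ = (δ : G) := by group
        rw [this]; exact δ.2)⟩
      left_inv := fun δ => Subtype.ext (by show α⁻¹ * (α * (δ : G) * α⁻¹) * α = δ; group)
      right_inv := fun δ => Subtype.ext (by show α * (α⁻¹ * (δ : G) * α) * α⁻¹ = δ; group) }
  exact hχ.comp_smul α e fun δ => by show α * (δ : G) * α⁻¹ * α = α * δ; group

/-- (U2) **Subgroups**: if every element of `Δ` is uniquely `δ i * δ'` (`i : ι`, `δ' ∈ Δ'`), then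
`∑' i, χ ∘ (δ i • ·)` is a `Δ'`-weight. -/
theorem tsum_smul (hχ : IsWeight Δ χ) {Δ' : Subgroup G} {ι : Type*} [Countable ι] (δ : ι → G)
    (e : ι × Δ' ≃ Δ) (he : ∀ p : ι × Δ', (e p : G) = δ p.1 * (p.2 : G)) :
    IsWeight Δ' fun x => ∑' i, χ (δ i • x) where
  measurable := Measurable.tsum fun i => hχ.measurable.comp (measurable_const_smul (δ i))
  tsum_eq_one := fun x => by
    rw [← hχ.tsum_eq_one x, ← e.tsum_eq]
    have h1 : ∑' c : ι × Δ', χ ((e c : G) • x)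
        = ∑' (i : ι) (δ' : Δ'), χ ((e (i, δ') : G) • x) :=
      ENNReal.tsum_prod (f := fun (i : ι) (δ' : Δ') => χ ((e (i, δ') : G) • x))
    rw [h1, ENNReal.tsum_comm]
    refine tsum_congr fun (i : ι) => tsum_congr fun (δ' : Δ') => ?_
    show χ (δ i • (δ' : G) • x) = χ ((e (i, δ') : G) • x)
    rw [he, mul_smul]

/-- (U2), finite form. -/
theorem sum_smul (hχ : IsWeight Δ χ) {Δ' : Subgroup G} {ι : Type*} [Fintype ι] (δ : ι → G)
    (e : ι × Δ' ≃ Δ) (he : ∀ p : ι × Δ', (e p : G) = δ p.1 * (p.2 : G)) :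
    IsWeight Δ' fun x => ∑ i, χ (δ i • x) := by
  have h := hχ.tsum_smul δ e he
  simp_rw [tsum_fintype] at h
  exact h

end IsWeight

variable {μ : Measure X} [MeasurableConstSMul G X] [SMulInvariantMeasure G X μ]

theorem lintegral_comp_smul' (f : X → ℝ≥0∞) (g : G) : ∫⁻ x, f (g • x) ∂μ = ∫⁻ x, f x ∂μ := by
  have h : MeasurableEmbedding fun x : X => g • x := (MeasurableEquiv.smul g).measurableEmbedding
  rw [← h.lintegral_map, MeasureTheory.map_smul]

/-- (U1) **Unfolding**: for a nonnegative measurable `Δ`-invariant function `φ`, the integral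
`∫⁻ φ χ` is the same for all `Δ`-weights `χ`. -/
theorem lintegral_mul_eq (Δ : Subgroup G) [Countable Δ] {φ χ₁ χ₂ : X → ℝ≥0∞} (hφ : Measurable φ)
    (hinv : ∀ δ ∈ Δ, ∀ x, φ (δ • x) = φ x) (h₁ : IsWeight Δ χ₁) (h₂ : IsWeight Δ χ₂) :
    ∫⁻ x, φ x * χ₁ x ∂μ = ∫⁻ x, φ x * χ₂ x ∂μ := by
  have hm₁ := h₁.measurable
  have hm₂ := h₂.measurable
  calc ∫⁻ x, φ x * χ₁ x ∂μ
      = ∫⁻ x, ∑' δ : Δ, φ x * χ₁ x * χ₂ ((δ : G) • x) ∂μ := by
        refine lintegral_congr fun x => ?_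
        rw [ENNReal.tsum_mul_left, h₂.tsum_eq_one x, mul_one]
    _ = ∑' δ : Δ, ∫⁻ x, φ x * χ₁ x * χ₂ ((δ : G) • x) ∂μ := by
        refine lintegral_tsum fun δ => ?_
        exact ((hφ.mul hm₁).mul (hm₂.comp (measurable_const_smul (δ : G)))).aemeasurable
    _ = ∑' δ : Δ, ∫⁻ y, φ y * χ₁ (((δ : G)⁻¹) • y) * χ₂ y ∂μ := by
        refine tsum_congr fun δ => ?_
        rw [← lintegral_comp_smul' (μ := μ)
          (fun y => φ y * χ₁ (((δ : G)⁻¹) • y) * χ₂ y) (δ : G)]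
        refine lintegral_congr fun x => ?_
        rw [hinv _ δ.2, inv_smul_smul]
    _ = ∫⁻ y, ∑' δ : Δ, φ y * χ₁ (((δ : G)⁻¹) • y) * χ₂ y ∂μ := by
        refine (lintegral_tsum fun δ => ?_).symm
        exact ((hφ.mul (hm₁.comp (measurable_const_smul ((δ : G)⁻¹)))).mul hm₂).aemeasurable
    _ = ∫⁻ y, φ y * χ₂ y ∂μ := by
        refine lintegral_congr fun y => ?_
        have : ∀ δ : Δ, φ y * χ₁ (((δ : G)⁻¹) • y) * χ₂ y
            = φ y * χ₂ y * χ₁ (((δ : G)⁻¹) • y) := fun δ => by ring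
        simp_rw [this]
        rw [ENNReal.tsum_mul_left, h₁.tsum_inv y, mul_one]

/-- If `∫⁻ φ χ = 0` for a `Δ`-weight `χ` and a measurable `Δ`-invariant `φ ≥ 0`, then `φ = 0`
almost everywhere (no fundamental domain, no identity theorem). -/
theorem ae_eq_zero_of_lintegral_mul_eq_zero (Δ : Subgroup G) [Countable Δ] {φ χ : X → ℝ≥0∞}
    (hφ : Measurable φ) (hinv : ∀ δ ∈ Δ, ∀ x, φ (δ • x) = φ x) (hχ : IsWeight Δ χ)
    (h0 : ∫⁻ x, φ x * χ x ∂μ = 0) : φ =ᵐ[μ] 0 := by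
  have hae : ∀ᵐ x ∂μ, φ x * χ x = 0 := by
    have := (lintegral_eq_zero_iff (hφ.mul hχ.measurable)).mp h0
    exact this
  -- transport along every `δ`
  have hall : ∀ᵐ x ∂μ, ∀ δ : Δ, φ ((δ : G) • x) * χ ((δ : G) • x) = 0 := by
    rw [ae_all_iff]
    intro δ
    exact (measurePreserving_smul (δ : G) μ).quasiMeasurePreserving.ae hae
  filter_upwards [hall] with x hx
  have h1 : φ x = ∑' δ : Δ, φ x * χ ((δ : G) • x) := by
    rw [ENNReal.tsum_mul_left, hχ.tsum_eq_one x, mul_one]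
  rw [h1]
  simp only [Pi.zero_apply, ENNReal.tsum_eq_zero]
  intro δ
  rw [← hinv _ δ.2 x]
  exact hx δ

/-- (C3) A weight has positive total mass (if `μ ≠ 0`). -/
theorem lintegral_pos_of_isWeight (Δ : Subgroup G) [Countable Δ] {χ : X → ℝ≥0∞}
    (hχ : IsWeight Δ χ) (hμ : μ ≠ 0) : 0 < ∫⁻ x, χ x ∂μ := by
  rw [pos_iff_ne_zero]
  intro h0
  have h1 : ∫⁻ x, (fun _ => (1 : ℝ≥0∞)) x * χ x ∂μ = 0 := by simpa using h0
  have := ae_eq_zero_of_lintegral_mul_eq_zero (μ := μ) Δ measurable_const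
    (fun _ _ _ => rfl) hχ h1
  have h2 : ∀ᵐ _ ∂μ, False := by
    filter_upwards [this] with x hx
    exact one_ne_zero hx
  rw [Filter.eventually_false_iff_eq_bot, ae_eq_bot] at h2
  exact hμ h2

end Fermat.Agent.FF3.PetUnfold
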